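import Fermat.Agent.ML.Low.K3.SigTX
import Fermat.Agent.RIB.Ctrl.Kap.Hyp
import Fermat.Agent.HK.Good

/-!
# ML / LOWER(A) / K3 : `[LOW-K3HECKE]`  the relation `Kap` is Hecke equivariant

`kap_hecke` : `Kap C m x y → Kap C m (T_r x) (fun i => T_r (y i))`, `r ∤ M q` a prime.
-/

set_option autoImplicit false
set_option linter.unusedSectionVars false
set_option linter.style.haveILetI false

noncomputable section

open ModularCurve AlgebraicCurve

namespace Fermat.Agent.ML.Low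

open Fermat.Agent.RED hiding Kb
open Fermat.Agent.S24 Fermat.Agent.RED.ES Fermat.Agent.S36 Fermat.Agent.S40.HK Fermat.Agent.RIB
open Fermat.Agent.RED.Gauss

variable {C : S36.Ctx} {m : ℕ}

theorem KRel.toRel {w : C.Fb} {y : JZero C.M} (h : KRel C m w y) : HK.Rel (A := C.A) m w y :=
  ⟨h.2.1, h.2.2⟩

/-- `KRel` is Hecke equivariant. -/
theorem KRel.hecke (h49 : 4 ∣ C.M ∨ 9 ∣ C.M) (hR : ReductionInputsModL C.A C.M) (r : Nat.Primes)
    (hr : ¬ (r : ℕ) ∣ C.M) {w : C.Fb} {y : JZero C.M} (h : KRel C m w y) :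
    haveI : NeZero (r : ℕ) := ⟨r.2.ne_zero⟩
    ∃ z : C.Fb, IsTX (r : ℕ) (Units.map (C.π : C.A →* C.k) (HK.zetaA C.A (r : ℕ)))
        (w : LaurentSeries C.k) (z : LaurentSeries C.k) ∧
      KRel C m z (heckeOperatorBar C.M r y) := by
  haveI : NeZero (r : ℕ) := ⟨r.2.ne_zero⟩
  obtain ⟨z, hz, hRz⟩ := (KRel.toRel h).hecke C.hA C.hqM h49 hR r hr
  refine ⟨z, hz, ?_, hRz.1, hRz.2⟩
  rw [← map_nsmul, h.1, map_zero]

/-- **[LOW-K3HECKE]** -/
theorem kap_hecke (h49 : Fermat.Agent.RED.aux C.q ∣ C.M) (r : Nat.Primes)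
    (hrN : ¬ (r : ℕ) ∣ C.M * C.q * C.q) {x : JZero (C.M * C.q * C.q)} {y : Fin 3 → JZero C.M}
    (h : Kap C m x y) :
    Kap C m (heckeOperatorBar (C.M * C.q * C.q) r x) (fun i => heckeOperatorBar C.M r (y i)) := by
  haveI : NeZero (r : ℕ) := ⟨r.2.ne_zero⟩
  have hR : ReductionInputsModL C.A C.M := ctx_reductionInputs C (C.h49_of_aux h49)
  have hrM : ¬ (r : ℕ) ∣ C.M := fun hd => hrN ((hd.mul_right C.q).mul_right C.q)
  obtain ⟨g, hg, hw⟩ := h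
  obtain ⟨g', hg'⟩ := exists_TXF C (r : ℕ) r.2 hrN g
  refine ⟨g', ?_, fun l => ?_⟩
  · rw [hg']
    exact Key.kum_hecke (C.M * C.q * C.q) (r : ℕ) r.2 hg
  · obtain ⟨w, hw1, hw2⟩ := hw l
    obtain ⟨z, hz, hRz⟩ := KRel.hecke (C.h49_of_aux h49) hR r hrM hw2
    obtain ⟨y', hy', hy''⟩ := formal3 r.2 hrN (HK.zetaA C.A (r : ℕ))
      (IsPrimitiveRoot.of_map_of_injective (HK.isPrimitiveRoot_zetaA C.A (r : ℕ))
        (Units.map_injective (f := (C.A.subtype : C.A →* Kb)) C.A.subtype_injective)) hg' l hw1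
    have e : y' = (z : LaurentSeries C.k) := hy''.unique hz
    exact ⟨z, e ▸ hy', hRz⟩

end Fermat.Agent.ML.Low
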