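import Fermat.Agent.S40.HK.Formal
import Fermat.Agent.S36.Mod.SysRed

/-!
# ML / LOWER(A) / K3 : the Gauss valuations and formulas of the type `T_m^×`

* `IsTX2 m ζ w₁ w₂ z` : `z(t^m) = w₁(t^(m²)) ∏_b w₂(ζ^b t)` (`IsTX m ζ w z = IsTX2 m ζ w w z`).
* `S36.NormalForm π lam x n` (`x = lam ^ n * unit`) is stable under `q ↦ q^c`, under the rotations by units of `A`, under compatible
  triples which move `lam` by a unit; the exponent is unique.
* `val_div_pow_eq_one` : if `e g'` is given by a formula `IsTX2` in terms of two series which have the same exponent as `e g` then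
  `v (g' / g ^ (m + 1)) = 1`.
* `IsTX2.gauss` : the formula passes to the Gauss reduction.
-/

set_option autoImplicit false
set_option linter.unusedSectionVars false

noncomputable section

open ModularCurve

namespace Fermat.Agent.ML.Low

open Fermat.Agent.RED.ES Fermat.Agent.RED.Gauss Fermat.Agent.S24 Fermat.Agent.SS
open Fermat.Agent.S40.HK Fermat.Agent.S36

section Formal

variable {R : Type*} [CommRing R] (m : ℕ) [NeZero m]

/-- the formula `z(t^m) = w₁(t^(m²)) ∏_b w₂(ζ^b t)`. -/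
def IsTX2 (ζ : Rˣ) (w₁ w₂ z : LaurentSeries R) : Prop :=
  qExpand R m z = qExpand R m (qExpand R m w₁) * ∏ b ∈ Finset.range m, rotR (ζ ^ b) w₂

variable {m}

theorem isTX2_iff_isTX {ζ : Rˣ} {w z : LaurentSeries R} : IsTX2 m ζ w w z ↔ IsTX m ζ w z := Iff.rfl

theorem IsTX2.unique {ζ : Rˣ} {w₁ w₂ z z' : LaurentSeries R} (h : IsTX2 m ζ w₁ w₂ z)
    (h' : IsTX2 m ζ w₁ w₂ z') : z = z' :=
  qExpand_injective (R := R) m (h.trans h'.symm)

theorem IsTX2.mul {ζ : Rˣ} {w₁ w₂ z w₁' w₂' z' : LaurentSeries R} (h : IsTX2 m ζ w₁ w₂ z)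
    (h' : IsTX2 m ζ w₁' w₂' z') : IsTX2 m ζ (w₁ * w₁') (w₂ * w₂') (z * z') := by
  unfold IsTX2 at *
  rw [map_mul, h, h', map_mul, map_mul]
  simp only [map_mul, Finset.prod_mul_distrib]
  ring

theorem IsTX2.map {R' : Type*} [CommRing R'] (φ : R →+* R') {ζ : Rˣ} {w₁ w₂ z : LaurentSeries R}
    (h : IsTX2 m ζ w₁ w₂ z) :
    IsTX2 m (Units.map (φ : R →* R') ζ) (coeffMap φ w₁) (coeffMap φ w₂) (coeffMap φ z) := by
  unfold IsTX2 at *
  rw [← coeffMap_qExpand, h, map_mul, coeffMap_qExpand, coeffMap_qExpand, map_prod]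
  congr 1
  refine Finset.prod_congr rfl fun b _ => ?_
  rw [coeffMap_rotR, map_pow]

theorem IsTX2.exists [IsDomain R] (ζ : Rˣ) (hζ : IsPrimitiveRoot ζ m) (w₁ w₂ : LaurentSeries R) :
    ∃ z, IsTX2 m ζ w₁ w₂ z := by
  obtain ⟨W, hW⟩ := exists_qExpand_eq_prod_rotR m ζ hζ w₂
  exact ⟨qExpand R m w₁ * W, by unfold IsTX2; rw [map_mul, hW]⟩

end Formal

section FormalField

variable {k : Type*} [Field k] {m : ℕ} [NeZero m]

theorem IsTX2.ne_zero {ζ : kˣ} {w₁ w₂ z : LaurentSeries k} (h : IsTX2 m ζ w₁ w₂ z) (hw₁ : w₁ ≠ 0)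
    (hw₂ : w₂ ≠ 0) : z ≠ 0 := by
  rintro rfl
  unfold IsTX2 at h
  rw [map_zero] at h
  have h1 : qExpand k m (qExpand k m w₁) ≠ 0 := by
    rw [Ne, map_eq_zero_iff _ (qExpand_injective (R := k) m),
      map_eq_zero_iff _ (qExpand_injective (R := k) m)]
    exact hw₁
  have h2 : ∏ b ∈ Finset.range m, rotR (ζ ^ b) w₂ ≠ 0 := by
    rw [Finset.prod_ne_zero_iff]
    intro b _
    rw [Ne, map_eq_zero_iff _ (rotR_injective _)]
    exact hw₂
  exact mul_ne_zero h1 h2 h.symm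

theorem IsTX2.of_mul {ζ : kˣ} {w₁ w₂ z w₁' w₂' z' : LaurentSeries k}
    (h : IsTX2 m ζ (w₁ * w₁') (w₂ * w₂') (z * z')) (h' : IsTX2 m ζ w₁' w₂' z') (hw₁' : w₁' ≠ 0)
    (hw₂' : w₂' ≠ 0) : IsTX2 m ζ w₁ w₂ z := by
  have hz' : z' ≠ 0 := h'.ne_zero hw₁' hw₂'
  unfold IsTX2 at *
  have h0 : qExpand k m z' ≠ 0 := by
    rw [Ne, map_eq_zero_iff _ (qExpand_injective (R := k) m)]
    exact hz'
  apply mul_right_cancel₀ h0
  rw [← map_mul, h, h']
  simp only [map_mul, Finset.prod_mul_distrib]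
  ring

theorem IsTX2.div {ζ : kˣ} {w₁ w₂ z w₁' w₂' z' : LaurentSeries k} (h : IsTX2 m ζ w₁ w₂ z)
    (h' : IsTX2 m ζ w₁' w₂' z') (hw₁' : w₁' ≠ 0) (hw₂' : w₂' ≠ 0) :
    IsTX2 m ζ (w₁ / w₁') (w₂ / w₂') (z / z') := by
  have hz' : z' ≠ 0 := h'.ne_zero hw₁' hw₂'
  refine IsTX2.of_mul (w₁' := w₁') (w₂' := w₂') (z' := z') ?_ h' hw₁' hw₂'
  rw [div_mul_cancel₀ _ hw₁', div_mul_cancel₀ _ hw₂', div_mul_cancel₀ _ hz']
  exact h

end FormalField

section Gauss

variable {L : Type*} [Field L] {A : ValuationSubring L} {k : Type*} [Field k] {π : A →+* k}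
variable {m : ℕ} [NeZero m]

/-- the formula passes to the Gauss reduction. -/
theorem IsTX2.gauss (ζ : Aˣ) (hζ : IsPrimitiveRoot ζ m) {u₁ u₂ z : LaurentSeries L}
    {y₁ y₂ : LaurentSeries k}
    (h : IsTX2 m (Units.map (A.subtype : A →* L) ζ) u₁ u₂ z) (hu₁ : RedsTo π u₁ y₁)
    (hu₂ : RedsTo π u₂ y₂) :
    ∃ y, RedsTo π z y ∧ IsTX2 m (Units.map (π : A →* k) ζ) y₁ y₂ y := by
  obtain ⟨hu₁, rfl⟩ := hu₁
  obtain ⟨hu₂, rfl⟩ := hu₂
  obtain ⟨a₁, b₁, hb₁, hab₁⟩ := id hu₁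
  obtain ⟨a₂, b₂, hb₂, hab₂⟩ := id hu₂
  obtain ⟨a', ha'⟩ := IsTX2.exists ζ hζ a₁ a₂
  obtain ⟨b', hb'⟩ := IsTX2.exists ζ hζ b₁ b₂
  have hπb' : pi π b' ≠ 0 := (hb'.map π).ne_zero hb₁ hb₂
  have h1 : IsTX2 m (Units.map (A.subtype : A →* L) ζ) (u₁ * iota A b₁) (u₂ * iota A b₂)
      (z * iota A b') := h.mul (hb'.map A.subtype)
  rw [hab₁, hab₂] at h1
  have key : z * iota A b' = iota A a' := h1.unique (ha'.map A.subtype)
  have hz : z ∈ bigO π := ⟨a', b', hπb', key⟩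
  refine ⟨_, ⟨hz, rfl⟩, ?_⟩
  rw [bigRed_eq π ⟨z, hz⟩ hπb' key, bigRed_eq π ⟨u₁, hu₁⟩ hb₁ hab₁, bigRed_eq π ⟨u₂, hu₂⟩ hb₂ hab₂]
  exact (ha'.map π).div (hb'.map π) hb₁ hb₂

end Gauss

section NF

variable {L : Type*} [Field L] {A : ValuationSubring L} {k : Type*} [Field k] {π : A →+* k}
variable {lam : L}

theorem normalForm_iff {x : LaurentSeries L} {n : ℤ} :
    NormalForm π lam x n ↔
      ∃ u y, RedsTo π u y ∧ y ≠ 0 ∧ x = HahnSeries.C (lam ^ n) * u := by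
  constructor
  · rintro ⟨u, hu, h0, rfl⟩
    exact ⟨u, _, ⟨hu, rfl⟩, h0, rfl⟩
  · rintro ⟨u, y, ⟨hu, rfl⟩, h0, rfl⟩
    exact ⟨u, hu, h0, rfl⟩

/-- the exponent of the normal form is unique. -/
theorem normalForm_unique (hπ : IsResMap π) (hlt : A.valuation lam < 1) (hne : lam ≠ 0)
    {x : LaurentSeries L} {n n' : ℤ} (h : NormalForm π lam x n) (h' : NormalForm π lam x n') :
    n = n' := by
  have hx : x ≠ 0 := h.ne_zero hne
  have h1 : NormalForm π lam 1 (n + -n') := by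
    have := h.mul hne h'.inv
    rwa [mul_inv_cancel₀ hx] at this
  have h2 : NormalForm π lam 1 (n' + -n) := by
    have := h'.mul hne h.inv
    rwa [mul_inv_cancel₀ hx] at this
  have h3 := (h1.mem_bigO_iff hπ hlt hne).1 (one_mem _)
  have h4 := (h2.mem_bigO_iff hπ hlt hne).1 (one_mem _)
  omega

/-- a constant of value `1`. -/
theorem redsTo_C_unit (hπ : IsResMap π) {c : L} (hc : A.valuation c = 1) :
    ∃ y, RedsTo π (HahnSeries.C c) y ∧ y ≠ 0 := by
  have hcA : c ∈ A := (A.valuation_le_one_iff c).1 hc.le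
  refine ⟨_, redsTo_C (⟨c, hcA⟩ : A), ?_⟩
  intro h0
  have h1 : π ⟨c, hcA⟩ = 0 := by
    have := congrArg (fun s : LaurentSeries k => s.coeff 0) h0
    simpa using this
  exact ((hπ.ker _).1 h1).ne hc

/-- compatible triples which move `lam` by a unit preserve the normal forms. -/
theorem normalForm_map (hπ : IsResMap π) (hne : lam ≠ 0)
    {ΦL : LaurentSeries L →+* LaurentSeries L} {ΦA : LaurentSeries A →+* LaurentSeries A}
    {Φk : LaurentSeries k →+* LaurentSeries k} (hC : Compat π π ΦL ΦA Φk) {lam' : L}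
    (hl : ΦL (HahnSeries.C lam) = HahnSeries.C lam') (hv : A.valuation lam' = A.valuation lam)
    {x : LaurentSeries L} {n : ℤ} (h : NormalForm π lam x n) : NormalForm π lam (ΦL x) n := by
  obtain ⟨u, y, hu, hy, rfl⟩ := normalForm_iff.1 h
  have hv0 : A.valuation lam ≠ 0 := (Valuation.ne_zero_iff _).2 hne
  have hc : A.valuation ((lam' / lam) ^ n) = 1 := by
    rw [map_zpow₀, map_div₀, hv, div_self hv0, one_zpow]
  obtain ⟨y', hy', hy'0⟩ := redsTo_C_unit hπ hc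
  refine normalForm_iff.2 ⟨HahnSeries.C ((lam' / lam) ^ n) * ΦL u, y' * Φk y,
    hy'.mul (hu.map hC), mul_ne_zero hy'0 ((map_ne_zero Φk).2 hy), ?_⟩
  rw [map_mul, map_zpow₀, map_zpow₀, hl, ← mul_assoc, ← map_zpow₀, ← map_zpow₀, ← map_mul,
    ← mul_zpow, mul_div_cancel₀ _ hne]

theorem normalForm_qExpand (hπ : IsResMap π) (hne : lam ≠ 0) (c : ℕ) [NeZero c]
    {x : LaurentSeries L} {n : ℤ} (h : NormalForm π lam x n) :
    NormalForm π lam (qExpand L c x) n :=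
  normalForm_map hπ hne (compat_qExpand π c) (qExpand_C' c lam) rfl h

theorem compat_rotR (π : A →+* k) (ζ : Aˣ) :
    Compat π π (rotR (Units.map (A.subtype : A →* L) ζ)) (rotR ζ)
      (rotR (Units.map (π : A →* k) ζ)) :=
  ⟨fun a => (coeffMap_rotR A.subtype ζ a).symm, fun a => (coeffMap_rotR π ζ a).symm⟩

theorem normalForm_rotR (hπ : IsResMap π) (hne : lam ≠ 0) (ζ : Aˣ)
    {x : LaurentSeries L} {n : ℤ} (h : NormalForm π lam x n) :
    NormalForm π lam (rotR (Units.map (A.subtype : A →* L) ζ) x) n :=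
  normalForm_map hπ hne (compat_rotR π ζ) (rotR_C' _ lam) rfl h

theorem normalForm_prod (hne : lam ≠ 0) {ι : Type*} (s : Finset ι) (f : ι → LaurentSeries L)
    {n : ℤ} (h : ∀ i ∈ s, NormalForm π lam (f i) n) :
    NormalForm π lam (∏ i ∈ s, f i) (n * s.card) := by
  classical
  induction s using Finset.induction_on with
  | empty => simpa using NormalForm.one π lam
  | insert a s ha ih =>
    rw [Finset.prod_insert ha, Finset.card_insert_of_notMem ha]
    have := (h a (Finset.mem_insert_self a s)).mul hne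
      (ih fun i hi => h i (Finset.mem_insert_of_mem hi))
    convert this using 1
    push_cast
    ring

variable {m : ℕ} [NeZero m]

/-- the exponent of a series given by a formula of type `T_m^×`. -/
theorem IsTX2.normalForm (hπ : IsResMap π) (hne : lam ≠ 0) (ζ : Aˣ) {w₁ w₂ z : LaurentSeries L}
    (h : IsTX2 m (Units.map (A.subtype : A →* L) ζ) w₁ w₂ z) {n : ℤ}
    (h₁ : NormalForm π lam w₁ n) (h₂ : NormalForm π lam w₂ n) :
    NormalForm π lam (qExpand L m z) (n * (m + 1)) := by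
  unfold IsTX2 at h
  rw [h]
  have a1 := normalForm_qExpand hπ hne m (normalForm_qExpand hπ hne m h₁)
  have a2 : NormalForm π lam
      (∏ b ∈ Finset.range m, rotR (Units.map (A.subtype : A →* L) ζ ^ b) w₂)
      (n * (Finset.range m).card) := by
    refine normalForm_prod hne _ _ fun b _ => ?_
    rw [← map_pow]
    exact normalForm_rotR hπ hne (ζ ^ b) h₂
  have := a1.mul hne a2
  rw [Finset.card_range] at this
  convert this using 1
  ring

variable {F : Type*} [Field F] {e : F →+* LaurentSeries L}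

/-- **the Gauss valuation of `T_m^× g / g ^ (m + 1)` is trivial.** -/
theorem val_div_pow_eq_one (hπ : IsResMap π) (hd : IsDiscEmb A lam e) (ζ : Aˣ) {g g' : F}
    {w₁ w₂ : LaurentSeries L} {n : ℤ} (hg : NormalForm π lam (e g) n)
    (h₁ : NormalForm π lam w₁ n) (h₂ : NormalForm π lam w₂ n)
    (h : IsTX2 m (Units.map (A.subtype : A →* L) ζ) w₁ w₂ (e g')) :
    (gvO π hπ hd).valuation (g' / g ^ (m + 1)) = 1 := by
  have h3 := h.normalForm hπ hd.lam_ne ζ h₁ h₂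
  have hg'0 : g' ≠ 0 := by
    rintro rfl
    rw [map_zero, map_zero] at h3
    exact h3.ne_zero hd.lam_ne rfl
  obtain ⟨n', hn'⟩ := hd.exists_normal hπ hg'0
  have h4 := normalForm_unique hπ hd.lam_lt hd.lam_ne
    (normalForm_qExpand hπ hd.lam_ne m hn') h3
  have h5 : NormalForm π lam (e (g' / g ^ (m + 1))) (n' + -(n * ((m + 1 : ℕ) : ℤ))) := by
    rw [map_div₀, map_pow, div_eq_mul_inv]
    exact hn'.mul hd.lam_ne (hg.pow hd.lam_ne (m + 1)).inv
  rw [gv_valuation_eq_one_iff_of_normal hπ hd h5, h4]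
  push_cast
  ring

end NF

end Fermat.Agent.ML.Low
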