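import Fermat.Agent.RED.ES.Norm
import Fermat.Agent.S40.HK.Formal

/-!
# ML / LOWER(A) / K3 : the norm `N_α` through an arbitrary embedding of the function field into `ℚbar((T))`

`sig_normAlong` : `σ₀ : F_N → ℚbar((T))` any ring hom, `φ i : F_{N ℓ} → ℚbar((T))` (`i ∈ {∞, 0, …, ℓ-1}`) pairwise different ring homs with
`φ i ∘ α = σ₀`.  Then `σ₀ (N_α z) = ∏ i, φ i z`.      (Generalisation of `RED.ES.qExpand_norm_of`.)

`IsTX2 ζ w₁ w₂ z` : `z(t^m) = w₁(t^(m²)) ∏_b w₂(ζ^b t)`, and its Gauss reduction.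
-/

set_option autoImplicit false
set_option linter.unusedSectionVars false
set_option linter.style.haveILetI false

noncomputable section

open ModularCurve AlgebraicCurve

namespace Fermat.Agent.ML.Low

open Fermat.Agent.RED hiding Kb
open Fermat.Agent.S24 Fermat.Agent.RED.ES

section Norm

variable (N ℓ : ℕ) [NeZero N] [NeZero ℓ] (σ₀ : FN N →+* LaurentSeries Kb)

/-- `LauBar` as an algebra over the function field of level `N`, via `σ₀`. -/
abbrev algSig : Algebra (FN N) LauBar := (lauIncl.comp σ₀).toAlgebra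

/-- Make an `FN N`-algebra hom out of a ring hom. -/
def mkSig (φ : FN (N * ℓ) →+* LaurentSeries Kb)
    (hφ : ∀ a : FN N, φ (heckeAlphaBar Kb N ℓ a) = σ₀ a) :
    letI := algebraAlong (heckeAlphaBar Kb N ℓ)
    letI := algSig N σ₀
    FN (N * ℓ) →ₐ[FN N] LauBar :=
  letI := algebraAlong (heckeAlphaBar Kb N ℓ)
  letI := algSig N σ₀
  AlgHom.mk (lauIncl.comp φ) (fun a => by
    have h1 : algebraMap (FN N) (FN (N * ℓ)) = (heckeAlphaBar Kb N ℓ).toRingHom :=
      RingHom.algebraMap_toAlgebra _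
    have h2 : algebraMap (FN N) LauBar = lauIncl.comp σ₀ :=
      RingHom.algebraMap_toAlgebra _
    rw [h1, h2, RingHom.toFun_eq_coe, RingHom.comp_apply, RingHom.comp_apply,
      AlgHom.toRingHom_eq_coe, RingHom.coe_coe, hφ])

theorem mkSig_apply (φ : FN (N * ℓ) →+* LaurentSeries Kb)
    (hφ : ∀ a : FN N, φ (heckeAlphaBar Kb N ℓ a) = σ₀ a)
    (f : FN (N * ℓ)) : mkSig N ℓ σ₀ φ hφ f = lauIncl (φ f) := rfl

/-- **the norm through an embedding.** -/
theorem sig_normAlong (hℓ : ℓ.Prime) (hℓN : ¬ ℓ ∣ N)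
    (φ : Option (Fin ℓ) → (FN (N * ℓ) →+* LaurentSeries Kb))
    (hα : ∀ i (a : FN N), φ i (heckeAlphaBar Kb N ℓ a) = σ₀ a)
    (hinj : Function.Injective φ) (z : FN (N * ℓ)) :
    σ₀ (TorsES.normAlong (heckeAlphaBar Kb N ℓ) z) = ∏ i, φ i z := by
  letI := algebraAlong (heckeAlphaBar Kb N ℓ)
  letI := algSig N σ₀
  haveI := Fermat.Agent.GAL.HeckeEquiv.finite_alpha N ℓ
  apply lauIncl.injective
  have h1 := Algebra.norm_eq_prod_embeddings (FN N) LauBar z
  have h2 : algebraMap (FN N) LauBar = lauIncl.comp σ₀ :=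
    RingHom.algebraMap_toAlgebra _
  rw [h2, RingHom.comp_apply] at h1
  have hbij : Function.Bijective (fun i : Option (Fin ℓ) =>
      mkSig N ℓ σ₀ (φ i) (hα i)) := by
    rw [Fintype.bijective_iff_injective_and_card]
    refine ⟨?_, ?_⟩
    · intro i i' hii
      apply hinj
      ext1 f
      apply lauIncl.injective
      exact DFunLike.congr_fun hii f
    · rw [AlgHom.card, finrank_alpha_eq N ℓ hℓ hℓN, Fintype.card_option, Fintype.card_fin]
  refine h1.trans ?_
  rw [← hbij.prod_comp (fun σ : FN (N * ℓ) →ₐ[FN N] LauBar => σ z), map_prod]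
  rfl

end Norm

end Fermat.Agent.ML.Low
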