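import Fermat.Agent.ML.Low.K3.Norm
import Fermat.Agent.S36.Theta.Uniq
import Fermat.Agent.S36.Mod.Cusp2
import Fermat.Agent.S36.Mod.SysFrac

/-!
# ML / LOWER(A) / K3 : `T_ℓ^×` at the cusp `1/q` of level `M q²`

`IsS2 M q ξ s` : `s : F_{M q²} → ℚbar((T))` is the expansion at the cusp "`ξ`" (identity on level `M q`, `u(q² τ) ↦ u(ξ T)`).

`IsS2.isTX2` : `(s_(ξ^ℓ) (T_ℓ^× u))(t^ℓ) = (s_(ξ^(ℓ²)) u)(t^(ℓ²)) ∏_b (s_ξ u)(ω^b t)`.
-/

set_option autoImplicit false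
set_option linter.unusedSectionVars false
set_option linter.style.haveILetI false

noncomputable section

open ModularCurve AlgebraicCurve

namespace Fermat.Agent.ML.Low

open Fermat.Agent.RED hiding Kb
open Fermat.Agent.S24 Fermat.Agent.RED.ES Fermat.Agent.S36 Fermat.Agent.S40.HK
open Fermat.Agent.GAL.HeckeComm (castLevel coe_castLevel)

/-- the specification of the expansion at the cusp `1/q` (with the root of unity `ξ`). -/
structure IsS2 (M q : ℕ) [NeZero M] [NeZero q] (ξ : Kbˣ)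
    (s : FN (M * q * q) →+* LaurentSeries Kb) : Prop where
  s0 : ∀ a : Kb, s (algebraMap Kb (FN (M * q * q)) a) = HahnSeries.C a
  s1 : ∀ y : FN (M * q), s (heckeAlphaBar Kb (M * q) q y) = (y : LaurentSeries Kb)
  s2 : ∀ u : FN M, s (heckeBetaBar Kb (M * q) q (heckeBetaBar Kb M q u))
        = rotR ξ (u : LaurentSeries Kb)

section Basic

variable {M q : ℕ} [NeZero M] [NeZero q]

theorem exists_isS2 (hq : q.Prime) (hqM : ¬ q ∣ M) (ξ : Kbˣ) (hξ : IsPrimitiveRoot ξ q) :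
    ∃ s, IsS2 M q ξ s := by
  obtain ⟨s, h0, h1, h2⟩ := exists_sigma2 M q hq hqM ξ hξ
  exact ⟨s, h0, h1, fun u => by rw [h2, rot_eq_rotR_sys]⟩

theorem IsS2.ext (hq : q.Prime) {ξ : Kbˣ} {s s' : FN (M * q * q) →+* LaurentSeries Kb}
    (h : IsS2 M q ξ s) (h' : IsS2 M q ξ s') : s = s' := by
  apply ringHom_ext_three M q hq
  · intro a; rw [h.s0, h'.s0]
  · intro u; rw [h.s1, h'.s1]
  · intro u; rw [h.s1, h'.s1]
  · intro u; rw [h.s2, h'.s2]

theorem IsS2.congr {ξ ξ' : Kbˣ} {s : FN (M * q * q) →+* LaurentSeries Kb} (h : IsS2 M q ξ s)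
    (e : ξ = ξ') : IsS2 M q ξ' s := e ▸ h

theorem IsS2.apply_jF {ξ : Kbˣ} {s : FN (M * q * q) →+* LaurentSeries Kb} (h : IsS2 M q ξ s) :
    s (jF (M * q * q)) = jqModC Kb := by
  have e : jF (M * q * q) = heckeAlphaBar Kb (M * q) q (jF (M * q)) := by
    apply Subtype.ext
    rw [coe_heckeAlphaBar, ES.coe_jF, ES.coe_jF]
  rw [e, h.s1, ES.coe_jF]

end Basic

section Level

variable {M q ℓ : ℕ} [NeZero M] [NeZero q] [NeZero ℓ]

theorem lev_eq (M q ℓ : ℕ) : M * q * q * ℓ = M * ℓ * q * q := by ring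

theorem lev_eq' (M q ℓ : ℕ) : M * q * ℓ = M * ℓ * q := by ring

/-- an expansion of level `(M ℓ) q²`, seen at level `(M q²) ℓ`. -/
def upS (s' : FN (M * ℓ * q * q) →+* LaurentSeries Kb) : FN (M * q * q * ℓ) →+* LaurentSeries Kb :=
  s'.comp (castLevel (lev_eq M q ℓ) : FN (M * q * q * ℓ) →+* FN (M * ℓ * q * q))

theorem upS_apply (s' : FN (M * ℓ * q * q) →+* LaurentSeries Kb) (x : FN (M * q * q * ℓ)) :
    upS s' x = s' (castLevel (lev_eq M q ℓ) x) := rfl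

variable {ξ : Kbˣ} {s' : FN (M * ℓ * q * q) →+* LaurentSeries Kb} (h' : IsS2 (M * ℓ) q ξ s')

include h'

theorem IsS2.upS_const (a : Kb) : upS s' (algebraMap Kb _ a) = HahnSeries.C a := by
  rw [upS_apply, AlgHom.commutes, h'.s0]

theorem IsS2.upS_alpha_alpha (y : FN (M * q)) :
    upS s' (heckeAlphaBar Kb (M * q * q) ℓ (heckeAlphaBar Kb (M * q) q y))
      = (y : LaurentSeries Kb) := by
  have e : castLevel (lev_eq M q ℓ) (heckeAlphaBar Kb (M * q * q) ℓ (heckeAlphaBar Kb (M * q) q y))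
      = heckeAlphaBar Kb (M * ℓ * q) q (castLevel (lev_eq' M q ℓ) (heckeAlphaBar Kb (M * q) ℓ y)) := by
    apply Subtype.ext
    rw [coe_castLevel, coe_heckeAlphaBar, coe_heckeAlphaBar, coe_heckeAlphaBar, coe_castLevel,
      coe_heckeAlphaBar]
  rw [upS_apply, e, h'.s1, coe_castLevel, coe_heckeAlphaBar]

theorem IsS2.upS_beta_alpha (y : FN (M * q)) :
    upS s' (heckeBetaBar Kb (M * q * q) ℓ (heckeAlphaBar Kb (M * q) q y))
      = qExpand Kb ℓ (y : LaurentSeries Kb) := by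
  have e : castLevel (lev_eq M q ℓ) (heckeBetaBar Kb (M * q * q) ℓ (heckeAlphaBar Kb (M * q) q y))
      = heckeAlphaBar Kb (M * ℓ * q) q (castLevel (lev_eq' M q ℓ) (heckeBetaBar Kb (M * q) ℓ y)) := by
    apply Subtype.ext
    rw [coe_castLevel, coe_heckeBetaBar, coe_heckeAlphaBar, coe_heckeAlphaBar, coe_castLevel,
      coe_heckeBetaBar]
  rw [upS_apply, e, h'.s1, coe_castLevel, coe_heckeBetaBar]

theorem IsS2.upS_alpha_beta (u : FN M) :
    upS s' (heckeAlphaBar Kb (M * q * q) ℓ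
      (heckeBetaBar Kb (M * q) q (heckeBetaBar Kb M q u))) = rotR ξ (u : LaurentSeries Kb) := by
  have e : castLevel (lev_eq M q ℓ) (heckeAlphaBar Kb (M * q * q) ℓ
      (heckeBetaBar Kb (M * q) q (heckeBetaBar Kb M q u)))
      = heckeBetaBar Kb (M * ℓ * q) q (heckeBetaBar Kb (M * ℓ) q (heckeAlphaBar Kb M ℓ u)) := by
    apply Subtype.ext
    rw [coe_castLevel, coe_heckeAlphaBar, coe_heckeBetaBar, coe_heckeBetaBar, coe_heckeBetaBar,
      coe_heckeBetaBar, coe_heckeAlphaBar]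
  rw [upS_apply, e, h'.s2, coe_heckeAlphaBar]

theorem IsS2.upS_beta_beta (u : FN M) :
    upS s' (heckeBetaBar Kb (M * q * q) ℓ
      (heckeBetaBar Kb (M * q) q (heckeBetaBar Kb M q u)))
      = qExpand Kb ℓ (rotR (ξ ^ ℓ) (u : LaurentSeries Kb)) := by
  have e : castLevel (lev_eq M q ℓ) (heckeBetaBar Kb (M * q * q) ℓ
      (heckeBetaBar Kb (M * q) q (heckeBetaBar Kb M q u)))
      = heckeBetaBar Kb (M * ℓ * q) q (heckeBetaBar Kb (M * ℓ) q (heckeBetaBar Kb M ℓ u)) := by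
    apply Subtype.ext
    rw [coe_castLevel, coe_heckeBetaBar, coe_heckeBetaBar, coe_heckeBetaBar, coe_heckeBetaBar,
      coe_heckeBetaBar, coe_heckeBetaBar, SS.qExpand_comm' ℓ q, SS.qExpand_comm' ℓ q]
  rw [upS_apply, e, h'.s2, coe_heckeBetaBar, SS.rotR_qExpand_pow]

/-- `s'_ξ ∘ α_ℓ = s_ξ`. -/
theorem IsS2.upS_alpha :
    IsS2 M q ξ ((upS s').comp (heckeAlphaBar Kb (M * q * q) ℓ : FN (M * q * q) →+* _)) where
  s0 a := by
    rw [RingHom.comp_apply, RingHom.coe_coe, AlgHom.commutes, h'.upS_const]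
  s1 y := h'.upS_alpha_alpha y
  s2 u := h'.upS_alpha_beta u

theorem IsS2.upS_alpha_apply (hq : q.Prime) {s : FN (M * q * q) →+* LaurentSeries Kb}
    (h : IsS2 M q ξ s) (x : FN (M * q * q)) :
    upS s' (heckeAlphaBar Kb (M * q * q) ℓ x) = s x :=
  congrArg (fun φ => φ x) (h'.upS_alpha.ext hq h)

/-- `s'_ξ ∘ β_ℓ = (T ↦ T^ℓ) ∘ s_(ξ^ℓ)`. -/
theorem IsS2.upS_beta_apply (hq : q.Prime) {s : FN (M * q * q) →+* LaurentSeries Kb}
    (h : IsS2 M q (ξ ^ ℓ) s) (x : FN (M * q * q)) :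
    upS s' (heckeBetaBar Kb (M * q * q) ℓ x) = qExpand Kb ℓ (s x) := by
  have : (upS s').comp (heckeBetaBar Kb (M * q * q) ℓ : FN (M * q * q) →+* _)
      = (qExpand Kb ℓ).comp s := by
    apply ringHom_ext_three M q hq
    · intro a
      rw [RingHom.comp_apply, RingHom.coe_coe, AlgHom.commutes, h'.upS_const, RingHom.comp_apply,
        h.s0, SS.qExpand_C']
    · intro u
      rw [RingHom.comp_apply, RingHom.coe_coe, h'.upS_beta_alpha, RingHom.comp_apply, h.s1]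
    · intro u
      rw [RingHom.comp_apply, RingHom.coe_coe, h'.upS_beta_alpha, RingHom.comp_apply, h.s1]
    · intro u
      rw [RingHom.comp_apply, RingHom.coe_coe, h'.upS_beta_beta, RingHom.comp_apply, h.s2]
  exact congrArg (fun φ => φ x) this

end Level

section Family

variable {M q ℓ : ℕ} [NeZero M] [NeZero q] [NeZero ℓ]

/-- the `ℓ + 1` extensions of `(T ↦ T^ℓ) ∘ s_(ξ^ℓ)` to level `(M q²) ℓ`. -/
def famS (t₁ t₂ : FN (M * q * q * ℓ) →+* LaurentSeries Kb)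
    (sw : FN (M * q * q * ℓ) →+* FN (M * q * q * ℓ)) (ω : Kbˣ) :
    Option (Fin ℓ) → (FN (M * q * q * ℓ) →+* LaurentSeries Kb)
  | none => (qExpand Kb ℓ).comp t₂
  | some b => (rotR (ω ^ (b : ℕ))).comp (t₁.comp sw)

/-- **`T_ℓ^×` at the cusp `1/q`.** -/
theorem IsS2.isTX2 (hq : q.Prime) (hqM : ¬ q ∣ M) (hℓ : ℓ.Prime) (hℓN : ¬ ℓ ∣ M * q * q)
    {ξ : Kbˣ} (hξ : IsPrimitiveRoot ξ q) (ω : Kbˣ) (hω : IsPrimitiveRoot ω ℓ)
    {s₁ s₂ s₃ : FN (M * q * q) →+* LaurentSeries Kb} (h₁ : IsS2 M q ξ s₁)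
    (h₂ : IsS2 M q (ξ ^ ℓ) s₂) (h₃ : IsS2 M q ((ξ ^ ℓ) ^ ℓ) s₃) (u : FN (M * q * q)) :
    qExpand Kb ℓ (s₂ (TX (M * q * q) ℓ u))
      = qExpand Kb ℓ (qExpand Kb ℓ (s₃ u)) * ∏ b ∈ Finset.range ℓ, rotR (ω ^ b) (s₁ u) := by
  have hqℓ : q ≠ ℓ := fun h => hℓN (h ▸ dvd_mul_left q (M * q))
  have hqMℓ : ¬ q ∣ M * ℓ := by
    intro h
    rcases (Nat.Prime.dvd_mul hq).1 h with h | h
    · exact hqM h
    · exact hqℓ ((Nat.prime_dvd_prime_iff_eq hq hℓ).1 h)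
  have hcop : Nat.Coprime ℓ q := (Nat.coprime_primes hℓ hq).2 hqℓ.symm
  have hξℓ : IsPrimitiveRoot (ξ ^ ℓ) q := hξ.pow_of_coprime ℓ hcop
  obtain ⟨t₁, ht₁⟩ := exists_isS2 (M := M * ℓ) hq hqMℓ ξ hξ
  obtain ⟨t₂, ht₂⟩ := exists_isS2 (M := M * ℓ) hq hqMℓ (ξ ^ ℓ) hξℓ
  obtain ⟨sw, -, hswα, hswβ⟩ := exists_swap (M * q * q) ℓ hℓ hℓN
  set φ := famS (upS t₁) (upS t₂) sw ω with hφ
  have hα : ∀ i (a : FN (M * q * q)), φ i (heckeAlphaBar Kb (M * q * q) ℓ a)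
      = ((qExpand Kb ℓ).comp s₂) a := by
    intro i a
    cases i with
    | none =>
      show qExpand Kb ℓ (upS t₂ _) = qExpand Kb ℓ (s₂ a)
      rw [ht₂.upS_alpha_apply hq h₂]
    | some b =>
      show rotR (ω ^ (b : ℕ)) (upS t₁ (sw _)) = qExpand Kb ℓ (s₂ a)
      rw [hswα, ht₁.upS_beta_apply hq h₂, rotR_qExpand]
      rw [← pow_mul, mul_comm, pow_mul, hω.pow_eq_one, one_pow]
  have hβn : ∀ a : FN (M * q * q), φ none (heckeBetaBar Kb (M * q * q) ℓ a)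
      = qExpand Kb ℓ (qExpand Kb ℓ (s₃ a)) := by
    intro a
    show qExpand Kb ℓ (upS t₂ _) = _
    rw [ht₂.upS_beta_apply hq h₃]
  have hβs : ∀ (b : Fin ℓ) (a : FN (M * q * q)), φ (some b) (heckeBetaBar Kb (M * q * q) ℓ a)
      = rotR (ω ^ (b : ℕ)) (s₁ a) := by
    intro b a
    show rotR (ω ^ (b : ℕ)) (upS t₁ (sw _)) = _
    rw [hswβ, ht₁.upS_alpha_apply hq h₁]
  have hinj : Function.Injective φ := by
    have hnd : ¬ ((ℓ : ℤ) ∣ (-1 : ℤ)) := by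
      intro h
      have h1 : (ℓ : ℤ) ∣ 1 := (dvd_neg.mp h)
      have h2 : ℓ ∣ 1 := by exact_mod_cast h1
      exact hℓ.one_lt.ne' (Nat.dvd_one.mp h2)
    have c0 : (φ none (heckeBetaBar Kb (M * q * q) ℓ (jF (M * q * q)))).coeff (-1) = 0 := by
      rw [hβn]
      exact qExpand_coeff_of_not_dvd ℓ _ hnd
    have c1 : ∀ b : Fin ℓ, (φ (some b) (heckeBetaBar Kb (M * q * q) ℓ (jF (M * q * q)))).coeff (-1)
        = (((ω ^ (b : ℕ)) ^ (-1 : ℤ) : Kbˣ) : Kb) := by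
      intro b
      rw [hβs, rotR_coeff, h₁.apply_jF, coeff_jqModC_neg_one, mul_one]
    intro i i' hii
    have hc := congrArg (fun ψ => (ψ (heckeBetaBar Kb (M * q * q) ℓ (jF (M * q * q)))).coeff (-1)) hii
    cases i with
    | none =>
      cases i' with
      | none => rfl
      | some b' =>
        rw [c0, c1] at hc
        exact absurd hc.symm (Units.ne_zero _)
    | some b =>
      cases i' with
      | none =>
        rw [c0, c1] at hc
        exact absurd hc (Units.ne_zero _)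
      | some b' =>
        rw [c1, c1] at hc
        have h1 : (ω ^ (b : ℕ)) ^ (-1 : ℤ) = (ω ^ (b' : ℕ)) ^ (-1 : ℤ) := Units.ext hc
        rw [zpow_neg_one, zpow_neg_one, inv_inj] at h1
        have h2 := hω.pow_inj b.2 b'.2 h1
        exact congrArg some (Fin.ext h2)
  have key := sig_normAlong (M * q * q) ℓ ((qExpand Kb ℓ).comp s₂) hℓ hℓN φ hα hinj
    (heckeBetaBar Kb (M * q * q) ℓ u)
  rw [RingHom.comp_apply, Fintype.prod_option, hβn] at key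
  rw [TX_def, key]
  congr 1
  rw [← Fin.prod_univ_eq_prod_range (fun b => rotR (ω ^ b) (s₁ u)) ℓ]
  exact Finset.prod_congr rfl fun b _ => hβs b u

end Family

end Fermat.Agent.ML.Low
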