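import Fermat.Agent.ML.Low.K3.Sig
import Fermat.Agent.ML.Low.K3.NF
import Fermat.Agent.RIB.Ctrl.Sig.Val
import Fermat.Agent.RIB.Ctrl.Sig.Corr

/-!
# ML / LOWER(A) / K3 : the expansions at the cusps `a/q` are conjugate under inertia

* `IsS2.gal_apply` : `s_(τ ξ) (τ f) = τ (s_ξ f)`;
* `IsS2.redsTo_congr` : on `F0` (functions over `K = ℚbar ^ I_A`) all the `s_ξ` have the same Gauss reduction;
* `redsTo_sig2_TX` : **[HK-FORMAL]** at the middle component of level `M q²`.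
-/

set_option autoImplicit false
set_option linter.unusedSectionVars false
set_option linter.style.haveILetI false

noncomputable section

open ModularCurve AlgebraicCurve

namespace Fermat.Agent.ML.Low

open Fermat.Agent.RED hiding Kb
open Fermat.Agent.S24 Fermat.Agent.RED.ES Fermat.Agent.S36 Fermat.Agent.S40.HK Fermat.Agent.RIB
open Fermat.Agent.RED.Gauss

section Gal

variable {M q : ℕ} [NeZero M] [NeZero q]

theorem IsS2.gal_apply (hq : q.Prime) (τ : GQ) {ξ ξ' : Kbˣ}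
    {s s' : FN (M * q * q) →+* LaurentSeries Kb} (h : IsS2 M q ξ s) (h' : IsS2 M q ξ' s')
    (hτ : Units.map ((τ : Kb →+* Kb) : Kb →* Kb) ξ = ξ') (f : FN (M * q * q)) :
    s' (galN _ τ f) = coeffMap (τ : Kb →+* Kb) (s f) := by
  have : s'.comp (galN _ τ) = (coeffMap (τ : Kb →+* Kb)).comp s := by
    apply ringHom_ext_three M q hq
    · intro a
      simp only [RingHom.comp_apply]
      rw [galN_algebraMap, h.s0, h'.s0, HahnSeries.C_apply, HahnSeries.C_apply, coeffMap_single]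
      rfl
    · intro u
      simp only [RingHom.comp_apply]
      rw [galN_alpha, h.s1, h'.s1, coe_galN]
    · intro u
      simp only [RingHom.comp_apply]
      rw [galN_alpha, h.s1, h'.s1, coe_galN]
    · intro u
      simp only [RingHom.comp_apply]
      rw [galN_beta, galN_beta, h.s2, h'.s2, coe_galN, coeffMap_rotR, hτ]
  exact congrArg (fun φ => φ f) this

end Gal

section Ctx

variable (C : S36.Ctx)

theorem isS2_ctx : IsS2 C.M C.q C.ζ C.sig2 :=
  ⟨C.isSW.s0, C.isSW.s1, fun u => by rw [C.isSW.s2, rot_eq_rotR_sys]⟩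

theorem sigk_of_mem_inertia {τ : GQ} (hτ : τ ∈ C.A.inertiaSubgroupIn ℚ)
    (hτD : τ ∈ C.A.decompositionSubgroup ℚ) : sigk C τ hτD = RingHom.id _ := by
  obtain ⟨g, hg, rfl⟩ := hτ
  ext1 z
  have := congrArg (fun e : RingAut (IsLocalRing.ResidueField C.A) => e z)
    (MonoidHom.mem_ker.mp hg)
  exact this

/-- inertia does not change the reductions -/
theorem redsTo_coeffMap_inertia {τ : GQ} (hτ : τ ∈ C.A.inertiaSubgroupIn ℚ)
    {x : LaurentSeries Kb} {y : LaurentSeries C.k} (h : RedsTo C.π x y) :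
    RedsTo C.π (coeffMap (τ : Kb →+* Kb) x) y := by
  have hτD : τ ∈ C.A.decompositionSubgroup ℚ := by
    obtain ⟨g, -, rfl⟩ := hτ
    exact g.2
  have := redsTo_coeffMap C τ hτD h
  rwa [sigk_of_mem_inertia C hτ hτD, coeffMap_id] at this

/-- the expansions `s_ξ`, `ξ` a primitive `q`-th root of unity, have the same reduction on `F0`. -/
theorem IsS2.redsTo_congr {ξ ξ' : Kbˣ} (hξ : IsPrimitiveRoot ξ C.q) (hξ' : IsPrimitiveRoot ξ' C.q)
    {s s' : FN (C.M * C.q * C.q) →+* LaurentSeries Kb} (h : IsS2 C.M C.q ξ s)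
    (h' : IsS2 C.M C.q ξ' s') {g : C.F} {y : LaurentSeries C.k}
    (hy : RedsTo C.π (s (embF0 C.A _ g)) y) : RedsTo C.π (s' (embF0 C.A _ g)) y := by
  obtain ⟨i, hi, hcop, hii⟩ := ((IsPrimitiveRoot.coe_units_iff.2 hξ).isPrimitiveRoot_iff).1
    (IsPrimitiveRoot.coe_units_iff.2 hξ')
  obtain ⟨τ, hτ, hτu⟩ := exists_inertia_cycloChar_eq C.hq C.A C.hA (ZMod.unitOfCoprime i hcop)
  have h1 : τ (ξ : Kb) = (ξ' : Kb) := by
    have h2 : (ξ : Kb) ^ C.q = 1 := (IsPrimitiveRoot.coe_units_iff.2 hξ).pow_eq_one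
    rw [Fermat.Agent.GAL.cycloChar_spec C.q τ h2, hτu, ZMod.coe_unitOfCoprime, ZMod.val_natCast,
      Nat.mod_eq_of_lt hi, hii]
  have h3 : Units.map ((τ : Kb →+* Kb) : Kb →* Kb) ξ = ξ' := Units.ext h1
  have h4 := h.gal_apply C.hq τ h' h3 (embF0 C.A _ g)
  have h5 : galN _ τ (embF0 C.A (C.M * C.q * C.q) g) = embF0 C.A _ g := by
    rw [galN_eq_smul]
    exact smul_embF0 C.A _ hτ g
  rw [h5] at h4
  rw [h4]
  exact redsTo_coeffMap_inertia C hτ hy

/-- **[HK-FORMAL]** at the middle component of level `M q²`. -/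
theorem redsTo_sig2_TX {r : ℕ} [NeZero r] (hr : r.Prime) (hrN : ¬ r ∣ C.M * C.q * C.q)
    (ω : C.Aˣ) (hω : IsPrimitiveRoot ω r) {g : C.F} {y : LaurentSeries C.k}
    (hy : RedsTo C.π (C.e3 1 g) y) :
    ∃ y', RedsTo C.π (C.sig2 (TX (C.M * C.q * C.q) r (embF0 C.A _ g))) y' ∧
      IsTX r (Units.map (C.π : C.A →* C.k) ω) y y' := by
  have hqr : C.q ≠ r := fun h => hrN (h ▸ dvd_mul_left C.q (C.M * C.q))
  have hcop : Nat.Coprime r C.q := (Nat.coprime_primes hr C.hq).2 hqr.symm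
  obtain ⟨m, -, hm⟩ := Nat.exists_mul_mod_eq_one_of_coprime hcop C.hq.one_lt
  have hmq : Nat.Coprime m C.q := by
    apply Nat.coprime_of_mul_modEq_one r
    show m * r % C.q = 1 % C.q
    rw [mul_comm, hm, Nat.mod_eq_of_lt C.hq.one_lt]
  have hξ : IsPrimitiveRoot (C.ζ ^ m) C.q := C.hζ.pow_of_coprime m hmq
  have hξr : (C.ζ ^ m) ^ r = C.ζ := by
    rw [← pow_mul, mul_comm, pow_eq_pow_mod _ C.hζ.pow_eq_one, hm, pow_one]
  have hζr : IsPrimitiveRoot (((C.ζ ^ m) ^ r) ^ r) C.q := by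
    rw [hξr]; exact C.hζ.pow_of_coprime r hcop
  obtain ⟨s₁, h₁⟩ := exists_isS2 (M := C.M) C.hq C.hqM _ hξ
  obtain ⟨s₃, h₃⟩ := exists_isS2 (M := C.M) C.hq C.hqM _ hζr
  have h₂ : IsS2 C.M C.q ((C.ζ ^ m) ^ r) C.sig2 := (isS2_ctx C).congr hξr.symm
  have key := h₁.isTX2 C.hq C.hqM hr hrN hξ (Units.map (C.A.subtype : C.A →* Kb) ω)
    (isPrimitiveRoot_map_subtype hω) h₂ h₃ (embF0 C.A _ g)
  have hy1 : RedsTo C.π (s₁ (embF0 C.A _ g)) y :=
    (isS2_ctx C).redsTo_congr C C.hζ hξ h₁ hy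
  have hy3 : RedsTo C.π (s₃ (embF0 C.A _ g)) y :=
    (isS2_ctx C).redsTo_congr C C.hζ hζr h₃ hy
  exact IsTX2.gauss ω hω (u₁ := s₃ (embF0 C.A _ g)) (u₂ := s₁ (embF0 C.A _ g)) key hy3 hy1

end Ctx

end Fermat.Agent.ML.Low
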