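import Fermat.Agent.S40.HK.Formal
import Fermat.Agent.S36.Theta.Uniq
import Fermat.Agent.S36.Mod.SysCtx

/-!
# ML / LOWER(A) / K3 : the Atkin-Lehner involution `W_{q²}` of level `M q²` commutes with `T_r^×`

Port of `S40.HK.swAlg_TX` : the involution `W_{q²}` of the level `(M r) q²` is compatible with the one of level `M q²` along the
two degeneracy maps `α_r`, `β_r`; the norm along `α_r` is transported.
-/

set_option autoImplicit false
set_option linter.unusedSectionVars false
set_option linter.style.haveILetI false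
set_option linter.unusedSimpArgs false

noncomputable section

open ModularCurve AlgebraicCurve

namespace Fermat.Agent.ML.Low

open Fermat.Agent.RED hiding Kb
open Fermat.Agent.RED.ES Fermat.Agent.RED.Gauss Fermat.Agent.S24 Fermat.Agent.SS
open Fermat.Agent.S40.HK Fermat.Agent.S36
open Fermat.Agent.GAL.HeckeComm

/-- `w` is "the" Atkin-Lehner involution `W_{q²}` of level `M q²`. -/
structure IsW2 (M q : ℕ) [NeZero M] [NeZero q] (w : FN (M * q * q) →+* FN (M * q * q)) : Prop where
  wc : ∀ a : Kb, w (algebraMap Kb _ a) = algebraMap Kb _ a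
  w0 : ∀ u : FN M, w (heckeAlphaBar Kb (M * q) q (heckeAlphaBar Kb M q u))
        = heckeBetaBar Kb (M * q) q (heckeBetaBar Kb M q u)
  w1 : ∀ u : FN M, w (heckeAlphaBar Kb (M * q) q (heckeBetaBar Kb M q u))
        = heckeAlphaBar Kb (M * q) q (heckeBetaBar Kb M q u)
  w2 : ∀ u : FN M, w (heckeBetaBar Kb (M * q) q (heckeBetaBar Kb M q u))
        = heckeAlphaBar Kb (M * q) q (heckeAlphaBar Kb M q u)

theorem exists_isW2 (M q : ℕ) [NeZero M] [NeZero q] (hq : q.Prime) (hqM : ¬ q ∣ M) :
    ∃ w, IsW2 M q w := by
  obtain ⟨w, h0, -, h1, h2, h3, -⟩ := exists_W2 M q hq hqM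
  exact ⟨w, h0, h1, h2, h3⟩

theorem isW2_ctx (C : S36.Ctx) : IsW2 C.M C.q C.W2 :=
  ⟨C.isSW.wc, C.isSW.w0, C.isSW.w1, C.isSW.w2⟩

section

variable {M q r : ℕ} [NeZero M] [NeZero q] [NeZero r]

theorem IsW2.invol {w : FN (M * q * q) →+* FN (M * q * q)} (H : IsW2 M q w) (hq : q.Prime)
    (f : FN (M * q * q)) : w (w f) = f := by
  have : w.comp w = RingHom.id _ := by
    apply ringHom_ext_three M q hq
    · intro a
      simp only [RingHom.comp_apply, RingHom.id_apply]
      rw [H.wc, H.wc]
    · intro u
      simp only [RingHom.comp_apply, RingHom.id_apply]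
      rw [H.w0, H.w2]
    · intro u
      simp only [RingHom.comp_apply, RingHom.id_apply]
      rw [H.w1, H.w1]
    · intro u
      simp only [RingHom.comp_apply, RingHom.id_apply]
      rw [H.w2, H.w0]
  exact congrArg (fun φ => φ f) this

/-- **[K3-W2]** `W_{q²}` commutes with `T_r^×`. -/
theorem IsW2.TX_comm {w : FN (M * q * q) →+* FN (M * q * q)} (H : IsW2 M q w)
    {w' : FN (M * r * q * q) →+* FN (M * r * q * q)} (H' : IsW2 (M * r) q w') (hq : q.Prime)
    (u : FN (M * q * q)) :
    w (TX (M * q * q) r u) = TX (M * q * q) r (w u) := by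
  have hlev : M * q * q * r = M * r * q * q := by ring
  set c1 : FN (M * q * q * r) →ₐ[Kb] FN (M * r * q * q) := castLevel hlev with hc1
  set c2 : FN (M * r * q * q) →ₐ[Kb] FN (M * q * q * r) := castLevel hlev.symm with hc2
  set eH : FN (M * q * q * r) →+* FN (M * q * q * r) :=
    (c2 : FN (M * r * q * q) →+* FN (M * q * q * r)).comp
      (w'.comp (c1 : FN (M * q * q * r) →+* FN (M * r * q * q))) with heH
  have heH' : ∀ z, eH z = c2 (w' (c1 z)) := fun z => rfl
  have h12 : ∀ y, c1 (c2 y) = y := fun y =>
    Subtype.ext ((coe_castLevel hlev _).trans (coe_castLevel hlev.symm y))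
  have h21 : ∀ y, c2 (c1 y) = y := fun y =>
    Subtype.ext ((coe_castLevel hlev.symm _).trans (coe_castLevel hlev y))
  have hinv : ∀ z, eH (eH z) = z := by
    intro z
    rw [heH', heH', h12, H'.invol hq, h21]
  have hα : ∀ a : FN (M * q * q), eH (heckeAlphaBar Kb (M * q * q) r a) =
      heckeAlphaBar Kb (M * q * q) r (w a) := by
    intro a
    have : eH.comp (heckeAlphaBar Kb (M * q * q) r : FN (M * q * q) →+* FN (M * q * q * r)) =
        (heckeAlphaBar Kb (M * q * q) r : FN (M * q * q) →+* FN (M * q * q * r)).comp w := by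
      apply ringHom_ext_three M q hq
      · intro a
        simp only [RingHom.comp_apply, RingHom.coe_coe, AlgHom.commutes, heH']
        rw [H'.wc, H.wc, AlgHom.commutes, AlgHom.commutes]
      · intro u
        simp only [RingHom.comp_apply, RingHom.coe_coe, heH']
        have e1 : c1 (heckeAlphaBar Kb (M * q * q) r
            (heckeAlphaBar Kb (M * q) q (heckeAlphaBar Kb M q u))) =
            heckeAlphaBar Kb (M * r * q) q (heckeAlphaBar Kb (M * r) q (heckeAlphaBar Kb M r u)) := by
          apply Subtype.ext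
          simp only [hc1, coe_castLevel, coe_heckeAlphaBar]
        rw [e1, H'.w0, H.w0]
        apply Subtype.ext
        simp only [hc2, coe_castLevel, coe_heckeAlphaBar, coe_heckeBetaBar]
      · intro u
        simp only [RingHom.comp_apply, RingHom.coe_coe, heH']
        have e1 : c1 (heckeAlphaBar Kb (M * q * q) r
            (heckeAlphaBar Kb (M * q) q (heckeBetaBar Kb M q u))) =
            heckeAlphaBar Kb (M * r * q) q (heckeBetaBar Kb (M * r) q (heckeAlphaBar Kb M r u)) := by
          apply Subtype.ext
          simp only [hc1, coe_castLevel, coe_heckeAlphaBar, coe_heckeBetaBar]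
        rw [e1, H'.w1, H.w1]
        apply Subtype.ext
        simp only [hc2, coe_castLevel, coe_heckeAlphaBar, coe_heckeBetaBar]
      · intro u
        simp only [RingHom.comp_apply, RingHom.coe_coe, heH']
        have e1 : c1 (heckeAlphaBar Kb (M * q * q) r
            (heckeBetaBar Kb (M * q) q (heckeBetaBar Kb M q u))) =
            heckeBetaBar Kb (M * r * q) q (heckeBetaBar Kb (M * r) q (heckeAlphaBar Kb M r u)) := by
          apply Subtype.ext
          simp only [hc1, coe_castLevel, coe_heckeAlphaBar, coe_heckeBetaBar]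
        rw [e1, H'.w2, H.w2]
        apply Subtype.ext
        simp only [hc2, coe_castLevel, coe_heckeAlphaBar, coe_heckeBetaBar]
    exact congrArg (fun φ => φ a) this
  have hβ : ∀ a : FN (M * q * q), eH (heckeBetaBar Kb (M * q * q) r a) =
      heckeBetaBar Kb (M * q * q) r (w a) := by
    intro a
    have : eH.comp (heckeBetaBar Kb (M * q * q) r : FN (M * q * q) →+* FN (M * q * q * r)) =
        (heckeBetaBar Kb (M * q * q) r : FN (M * q * q) →+* FN (M * q * q * r)).comp w := by
      apply ringHom_ext_three M q hq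
      · intro a
        simp only [RingHom.comp_apply, RingHom.coe_coe, AlgHom.commutes, heH']
        rw [H'.wc, H.wc, AlgHom.commutes, AlgHom.commutes]
      · intro u
        simp only [RingHom.comp_apply, RingHom.coe_coe, heH']
        have e1 : c1 (heckeBetaBar Kb (M * q * q) r
            (heckeAlphaBar Kb (M * q) q (heckeAlphaBar Kb M q u))) =
            heckeAlphaBar Kb (M * r * q) q (heckeAlphaBar Kb (M * r) q (heckeBetaBar Kb M r u)) := by
          apply Subtype.ext
          simp only [hc1, coe_castLevel, coe_heckeAlphaBar, coe_heckeBetaBar]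
        rw [e1, H'.w0, H.w0]
        apply Subtype.ext
        simp only [hc2, coe_castLevel, coe_heckeAlphaBar, coe_heckeBetaBar]
        rw [qExpand_comm' r q, qExpand_comm' r q]
      · intro u
        simp only [RingHom.comp_apply, RingHom.coe_coe, heH']
        have e1 : c1 (heckeBetaBar Kb (M * q * q) r
            (heckeAlphaBar Kb (M * q) q (heckeBetaBar Kb M q u))) =
            heckeAlphaBar Kb (M * r * q) q (heckeBetaBar Kb (M * r) q (heckeBetaBar Kb M r u)) := by
          apply Subtype.ext
          simp only [hc1, coe_castLevel, coe_heckeAlphaBar, coe_heckeBetaBar]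
          rw [qExpand_comm' r q]
        rw [e1, H'.w1, H.w1]
        apply Subtype.ext
        simp only [hc2, coe_castLevel, coe_heckeAlphaBar, coe_heckeBetaBar]
        rw [qExpand_comm' r q]
      · intro u
        simp only [RingHom.comp_apply, RingHom.coe_coe, heH']
        have e1 : c1 (heckeBetaBar Kb (M * q * q) r
            (heckeBetaBar Kb (M * q) q (heckeBetaBar Kb M q u))) =
            heckeBetaBar Kb (M * r * q) q (heckeBetaBar Kb (M * r) q (heckeBetaBar Kb M r u)) := by
          apply Subtype.ext
          simp only [hc1, coe_castLevel, coe_heckeAlphaBar, coe_heckeBetaBar]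
          rw [qExpand_comm' r q, qExpand_comm' r q]
        rw [e1, H'.w2, H.w2]
        apply Subtype.ext
        simp only [hc2, coe_castLevel, coe_heckeAlphaBar, coe_heckeBetaBar]
    exact congrArg (fun φ => φ a) this
  let e : FN (M * q * q * r) ≃+* FN (M * q * q * r) :=
    RingEquiv.ofRingHom eH eH (RingHom.ext hinv) (RingHom.ext hinv)
  let eW : FN (M * q * q) ≃+* FN (M * q * q) :=
    RingEquiv.ofRingHom w w (RingHom.ext (H.invol hq)) (RingHom.ext (H.invol hq))
  have key := @Algebra.norm_eq_of_equiv_equiv (FN (M * q * q)) (FN (M * q * q * r)) (FN (M * q * q))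
    (FN (M * q * q * r)) _ _ _ _ (algebraAlong (heckeAlphaBar Kb (M * q * q) r))
    (algebraAlong (heckeAlphaBar Kb (M * q * q) r)) eW e (by
      refine RingHom.ext fun a => ?_
      exact (hα a).symm) (heckeBetaBar Kb (M * q * q) r u)
  have key' : TX (M * q * q) r u = eW.symm (TX (M * q * q) r (w u)) := by
    refine key.trans ?_
    show eW.symm _ = _
    congr 1
    show TorsES.normAlong (heckeAlphaBar Kb (M * q * q) r) (eH (heckeBetaBar Kb (M * q * q) r u)) = _
    rw [hβ]
    rfl
  rw [key']
  exact eW.apply_symm_apply _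

end

/-- **[K3-W2]** in the language of `S36.Ctx`. -/
theorem W2_TX (C : S36.Ctx) {r : ℕ} [NeZero r] (hr : r.Prime) (hrq : r ≠ C.q)
    (u : FN (C.M * C.q * C.q)) :
    C.W2 (TX (C.M * C.q * C.q) r u) = TX (C.M * C.q * C.q) r (C.W2 u) := by
  have h₂ : ¬ C.q ∣ C.M * r := by
    intro h
    rcases (Nat.Prime.dvd_mul C.hq).1 h with h | h
    · exact C.hqM h
    · exact hrq ((Nat.prime_dvd_prime_iff_eq C.hq hr).1 h).symm
  obtain ⟨w', H'⟩ := exists_isW2 (C.M * r) C.q C.hq h₂
  exact (isW2_ctx C).TX_comm H' C.hq u

end Fermat.Agent.ML.Low
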