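import Fermat.Agent.ML.Low.K3.NF
import Fermat.Agent.ML.Low.K3.W2TX
import Fermat.Agent.RIB.Key.Tx
import Fermat.Agent.RIB.Ctrl.Sig.Val
import Fermat.Agent.Common.PlaceBridgeHens

/-!
# ML / LOWER(A) / K3 : `T_r^×` on the function field `C.F` of `X₀(M q²)` over `K = ℚbar ^ I` and the three Gauss valuations

* `exists_TXF` : `T_r^×` is defined over `K` : `embF0 g' = TX (embF0 g)`;
* `SigTX C r` : the interface with `[LOW-K3SIG]` (the formula for the expansion at the cusp `1/q`);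
* `isTX2_e3` : for each of the three expansions `e3 l (T_r^× g)` is given by a formula `IsTX2` in terms of two `I`-conjugates of
  `e3 l g`;
* `val_TXF` : `v_l (T_r^× g / g ^ (r + 1)) = 1`.
-/

set_option autoImplicit false
set_option linter.unusedSectionVars false

noncomputable section

open ModularCurve AlgebraicCurve

namespace Fermat.Agent.ML.Low

open Fermat.Agent.RED.ES Fermat.Agent.RED.Gauss Fermat.Agent.S24 Fermat.Agent.SS
open Fermat.Agent.S40.HK Fermat.Agent.S36 Fermat.Agent.RIB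
open Fermat.Agent.RED (GQ)

variable (C : S36.Ctx) (r : ℕ) [NeZero r]

/-- `T_r^×` is defined over `K`. -/
theorem exists_TXF (hr : r.Prime) (hrN : ¬ r ∣ C.M * C.q * C.q) (g : C.F) :
    ∃ g' : C.F, embF0 C.A (C.M * C.q * C.q) g' =
      TX (C.M * C.q * C.q) r (embF0 C.A (C.M * C.q * C.q) g) := by
  apply (mem_range_embF0_iff C.A (C.M * C.q * C.q) _).2
  intro σ hσ
  have h1 := gal_smul_TX hr hrN σ (embF0 C.A (C.M * C.q * C.q) g)
  have h2 : gal (C.M * C.q * C.q) σ • embF0 C.A (C.M * C.q * C.q) g =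
      embF0 C.A (C.M * C.q * C.q) g := smul_embF0 C.A (C.M * C.q * C.q) hσ g
  rw [h2] at h1
  exact h1

/-- **the interface with `[LOW-K3SIG]`** : the expansion of `T_r^× g` at the cusp `1/q`. -/
def SigTX : Prop :=
  ∀ (ξ : Kbˣ), IsPrimitiveRoot ξ r → ∀ g : C.F,
    ∃ τ₁ ∈ C.A.inertiaSubgroupIn ℚ, ∃ τ₂ ∈ C.A.inertiaSubgroupIn ℚ,
      IsTX2 r ξ (coeffMap (τ₁ : Kb →+* Kb) (C.e3 1 g)) (coeffMap (τ₂ : Kb →+* Kb) (C.e3 1 g))
        (C.sig2 (TX (C.M * C.q * C.q) r (embF0 C.A (C.M * C.q * C.q) g)))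

variable {C r}

theorem coeffMap_one_gq (x : LaurentSeries Kb) :
    coeffMap (((1 : GQ) : Kb ≃ₐ[ℚ] Kb) : Kb →+* Kb) x = x := by
  ext n
  rfl

/-- the three expansions of `T_r^× g`. -/
theorem isTX2_e3 (hS : SigTX C r) (hr : r.Prime) (hrN : ¬ r ∣ C.M * C.q * C.q) (ξ : Kbˣ)
    (hξ : IsPrimitiveRoot ξ r) {g g' : C.F}
    (hg' : embF0 C.A (C.M * C.q * C.q) g' =
      TX (C.M * C.q * C.q) r (embF0 C.A (C.M * C.q * C.q) g)) (l : Fin 3) :
    ∃ τ₁ ∈ C.A.inertiaSubgroupIn ℚ, ∃ τ₂ ∈ C.A.inertiaSubgroupIn ℚ,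
      IsTX2 r ξ (coeffMap (τ₁ : Kb →+* Kb) (C.e3 l g)) (coeffMap (τ₂ : Kb →+* Kb) (C.e3 l g))
        (C.e3 l g') := by
  have hrq : r ≠ C.q := by
    rintro rfl
    exact hrN (dvd_mul_left _ _)
  fin_cases l
  · refine ⟨1, one_mem _, 1, one_mem _, ?_⟩
    rw [coeffMap_one_gq]
    show IsTX r ξ ((embF0 C.A _ g : FN (C.M * C.q * C.q)) : LaurentSeries Kb)
      ((embF0 C.A _ g' : FN (C.M * C.q * C.q)) : LaurentSeries Kb)
    rw [hg']
    exact isTX_coe hr hrN ξ hξ _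
  · obtain ⟨τ₁, h₁, τ₂, h₂, h⟩ := hS ξ hξ g
    refine ⟨τ₁, h₁, τ₂, h₂, ?_⟩
    show IsTX2 r ξ _ _ (C.sig2 (embF0 C.A _ g'))
    rw [hg']
    exact h
  · refine ⟨1, one_mem _, 1, one_mem _, ?_⟩
    rw [coeffMap_one_gq]
    show IsTX r ξ ((C.W2 (embF0 C.A _ g) : FN (C.M * C.q * C.q)) : LaurentSeries Kb)
      ((C.W2 (embF0 C.A _ g') : FN (C.M * C.q * C.q)) : LaurentSeries Kb)
    rw [hg', W2_TX C hr hrq]
    exact isTX_coe hr hrN ξ hξ _

/-- the decomposition group preserves the normal forms. -/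
theorem normalForm_coeffMap (C : S36.Ctx) {lam : Kb} (hne : lam ≠ 0) {τ : GQ}
    (hτ : τ ∈ C.A.decompositionSubgroup ℚ) {x : LaurentSeries Kb} {n : ℤ}
    (h : NormalForm C.π lam x n) : NormalForm C.π lam (coeffMap (τ : Kb →+* Kb) x) n := by
  refine normalForm_map (lam' := τ lam) C.hπ hne
    (compat_decomposition (K := ℚ) C.A ⟨τ, hτ⟩) ?_
    (Bridge.valuation_apply_of_mem_decomposition hτ lam) h
  rw [HahnSeries.C_apply, coeffMap_single, HahnSeries.C_apply]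
  rfl

/-- **the three Gauss valuations of `T_r^× g / g ^ (r + 1)` are trivial.** -/
theorem val_TXF (hS : SigTX C r) (hr : r.Prime) (hrN : ¬ r ∣ C.M * C.q * C.q) {g g' : C.F}
    (hg : g ≠ 0)
    (hg' : embF0 C.A (C.M * C.q * C.q) g' =
      TX (C.M * C.q * C.q) r (embF0 C.A (C.M * C.q * C.q) g)) (l : Fin 3) :
    (C.O3 l).valuation (g' / g ^ (r + 1)) = 1 := by
  obtain ⟨ζ, hζ⟩ := exists_zetaA C.A r
  obtain ⟨τ₁, h₁, τ₂, h₂, h⟩ := isTX2_e3 hS hr hrN _ (isPrimitiveRoot_map_subtype hζ) hg' l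
  obtain ⟨n, hn⟩ := (C.disc3 l).exists_normal C.hπ hg
  exact val_div_pow_eq_one C.hπ (C.disc3 l) ζ hn
    (normalForm_coeffMap C (C.disc3 l).lam_ne (Bridge.mem_decomposition_of_mem_inertia h₁) hn)
    (normalForm_coeffMap C (C.disc3 l).lam_ne (Bridge.mem_decomposition_of_mem_inertia h₂) hn) h

end Fermat.Agent.ML.Low
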