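import Fermat.Agent.ML.Low.K3.SigGal
import Fermat.Agent.ML.Low.K3.Val

/-!
# ML / LOWER(A) / K3 : `[LOW-K3SIG]` `sigTX : SigTX C r`, and `[HK-FORMAL]` at the three components of level `M q²`

* `sigTX` : the interface `SigTX C r` of `K3/Val.lean`;
* `formal3` : `RedsTo (e3 l g) y → ∃ y', RedsTo (e3 l (T_r^× g)) y' ∧ IsTX r ω y y'`.
-/

set_option autoImplicit false
set_option linter.unusedSectionVars false
set_option linter.style.haveILetI false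

noncomputable section

open ModularCurve AlgebraicCurve

namespace Fermat.Agent.ML.Low

open Fermat.Agent.RED hiding Kb
open Fermat.Agent.S24 Fermat.Agent.RED.ES Fermat.Agent.S36 Fermat.Agent.S40.HK Fermat.Agent.RIB
open Fermat.Agent.RED.Gauss

variable (C : S36.Ctx)

/-- the expansions `s_ξ` are conjugate under inertia on `F0`. -/
theorem IsS2.exists_inertia {ξ ξ' : Kbˣ} (hξ : IsPrimitiveRoot ξ C.q)
    (hξ' : IsPrimitiveRoot ξ' C.q)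
    {s s' : FN (C.M * C.q * C.q) →+* LaurentSeries Kb} (h : IsS2 C.M C.q ξ s)
    (h' : IsS2 C.M C.q ξ' s') :
    ∃ τ ∈ C.A.inertiaSubgroupIn ℚ, ∀ g : C.F,
      s' (embF0 C.A _ g) = coeffMap (τ : Kb →+* Kb) (s (embF0 C.A _ g)) := by
  obtain ⟨i, hi, hcop, hii⟩ := ((IsPrimitiveRoot.coe_units_iff.2 hξ).isPrimitiveRoot_iff).1
    (IsPrimitiveRoot.coe_units_iff.2 hξ')
  obtain ⟨τ, hτ, hτu⟩ := exists_inertia_cycloChar_eq C.hq C.A C.hA (ZMod.unitOfCoprime i hcop)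
  refine ⟨τ, hτ, fun g => ?_⟩
  have h1 : τ (ξ : Kb) = (ξ' : Kb) := by
    have h2 : (ξ : Kb) ^ C.q = 1 := (IsPrimitiveRoot.coe_units_iff.2 hξ).pow_eq_one
    rw [Fermat.Agent.GAL.cycloChar_spec C.q τ h2, hτu, ZMod.coe_unitOfCoprime, ZMod.val_natCast,
      Nat.mod_eq_of_lt hi, hii]
  have h3 : Units.map ((τ : Kb →+* Kb) : Kb →* Kb) ξ = ξ' := Units.ext h1
  have h4 := h.gal_apply C.hq τ h' h3 (embF0 C.A _ g)
  have h5 : galN _ τ (embF0 C.A (C.M * C.q * C.q) g) = embF0 C.A _ g := by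
    rw [galN_eq_smul]
    exact smul_embF0 C.A _ hτ g
  rwa [h5] at h4

variable {C}

/-- **[LOW-K3SIG]** -/
theorem sigTX {r : ℕ} [NeZero r] (hr : r.Prime) (hrN : ¬ r ∣ C.M * C.q * C.q) : SigTX C r := by
  intro ω hω g
  have hqr : C.q ≠ r := fun h => hrN (h ▸ dvd_mul_left C.q (C.M * C.q))
  have hcop : Nat.Coprime r C.q := (Nat.coprime_primes hr C.hq).2 hqr.symm
  obtain ⟨m, -, hm⟩ := Nat.exists_mul_mod_eq_one_of_coprime hcop C.hq.one_lt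
  have hmq : Nat.Coprime m C.q := by
    apply Nat.coprime_of_mul_modEq_one r
    show m * r % C.q = 1 % C.q
    rw [mul_comm, hm, Nat.mod_eq_of_lt C.hq.one_lt]
  have hξ : IsPrimitiveRoot (C.ζ ^ m) C.q := C.hζ.pow_of_coprime m hmq
  have hξr : (C.ζ ^ m) ^ r = C.ζ := by
    rw [← pow_mul, mul_comm, pow_eq_pow_mod _ C.hζ.pow_eq_one, hm, pow_one]
  have hζr : IsPrimitiveRoot (((C.ζ ^ m) ^ r) ^ r) C.q := by
    rw [hξr]; exact C.hζ.pow_of_coprime r hcop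
  obtain ⟨s₁, h₁⟩ := exists_isS2 (M := C.M) C.hq C.hqM _ hξ
  obtain ⟨s₃, h₃⟩ := exists_isS2 (M := C.M) C.hq C.hqM _ hζr
  have h₂ : IsS2 C.M C.q ((C.ζ ^ m) ^ r) C.sig2 := (isS2_ctx C).congr hξr.symm
  have key := h₁.isTX2 C.hq C.hqM hr hrN hξ ω hω h₂ h₃ (embF0 C.A _ g)
  obtain ⟨τ₁, hτ₁, e₁⟩ := (isS2_ctx C).exists_inertia C C.hζ hζr h₃
  obtain ⟨τ₂, hτ₂, e₂⟩ := (isS2_ctx C).exists_inertia C C.hζ hξ h₁
  refine ⟨τ₁, hτ₁, τ₂, hτ₂, ?_⟩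
  rw [e₁, e₂] at key
  exact key

/-- **[HK-FORMAL]** at the three components of level `M q²`. -/
theorem formal3 {r : ℕ} [NeZero r] (hr : r.Prime) (hrN : ¬ r ∣ C.M * C.q * C.q)
    (ω : C.Aˣ) (hω : IsPrimitiveRoot ω r) {g g' : C.F}
    (hg' : embF0 C.A (C.M * C.q * C.q) g' =
      TX (C.M * C.q * C.q) r (embF0 C.A (C.M * C.q * C.q) g)) (l : Fin 3)
    {y : LaurentSeries C.k} (hy : RedsTo C.π (C.e3 l g) y) :
    ∃ y', RedsTo C.π (C.e3 l g') y' ∧ IsTX r (Units.map (C.π : C.A →* C.k) ω) y y' := by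
  obtain ⟨τ₁, h₁, τ₂, h₂, h⟩ := isTX2_e3 (sigTX hr hrN) hr hrN _
    (isPrimitiveRoot_map_subtype hω) hg' l
  exact IsTX2.gauss ω hω h (redsTo_coeffMap_inertia C h₁ hy) (redsTo_coeffMap_inertia C h₂ hy)

end Fermat.Agent.ML.Low
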